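import Fermat.Prelude.Def_GaloisRep_ComplexConjugation
import Fermat.Prelude.Def_ModularCurve_PeriodHomPair
import Fermat.Agent.MU.F3.I2.Kappa.CharOf

section MergeWrap_E_Desc_W_Basic -- from E/Desc/W/Basic.lean

set_option autoImplicit false

noncomputable section

namespace Fermat.Agent.EDescW

open ModularCurve ModularCurve.Period CongruenceSubgroup
open Fermat.Agent.F3I2 Fermat.Agent.F3EC
open scoped MatrixGroups

/-- the conjugate character `γ ↦ conj (χ (δ γ δ⁻¹))`. -/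
def conjChar (N : ℕ) (χ : ↥(Gamma0 N) →* ℂˣ) : ↥(Gamma0 N) →* ℂˣ :=
  (Units.map ((starRingEnd ℂ : ℂ →+* ℂ) : ℂ →* ℂ)).comp (χ.comp (jConjGamma0 N))

theorem conjChar_apply (N : ℕ) (χ : ↥(Gamma0 N) →* ℂˣ) (γ : ↥(Gamma0 N)) :
    ((conjChar N χ γ : ℂˣ) : ℂ) = starRingEnd ℂ ((χ (jConjGamma0 N γ) : ℂˣ) : ℂ) := rfl

theorem conjChar_conjChar (N : ℕ) (χ : ↥(Gamma0 N) →* ℂˣ) : conjChar N (conjChar N χ) = χ := by
  ext γ
  rw [conjChar_apply, conjChar_apply, jConjGamma0_jConjGamma0, Complex.conj_conj]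

theorem conjChar_mul (N : ℕ) (χ χ' : ↥(Gamma0 N) →* ℂˣ) :
    conjChar N (χ * χ') = conjChar N χ * conjChar N χ' := by
  ext γ
  simp only [conjChar_apply, MonoidHom.mul_apply, Units.val_mul, map_mul]

theorem conjChar_pow (N : ℕ) (χ : ↥(Gamma0 N) →* ℂˣ) (m : ℕ) :
    conjChar N (χ ^ m) = conjChar N χ ^ m := by
  ext γ
  simp only [conjChar_apply, MonoidHom.pow_apply, Units.val_pow_eq_pow_val, map_pow]

/-- the involution of `HomPar N` induced by `γ ↦ δ γ δ⁻¹`. -/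
def conjHom (N : ℕ) : HomPar N →ₗ[ℤ] HomPar N :=
  (charInvolution N ℤ ℤ).restrict fun _ hψ => charInvolution_mem_parabolicHoms N ℤ ℤ hψ

theorem conjHom_apply (N : ℕ) (c : HomPar N) (γ : ↥(Gamma0 N)) :
    (conjHom N c).1 (Additive.ofMul γ) = c.1 (Additive.ofMul (jConjGamma0 N γ)) := rfl

theorem conjHom_conjHom (N : ℕ) (c : HomPar N) : conjHom N (conjHom N c) = c := by
  apply Subtype.ext
  exact charInvolution_charInvolution N ℤ ℤ c.1

/-- `γ` has trace `± 2` (parabolic, or `± 1`). -/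
def IsPar {N : ℕ} (γ : ↥(Gamma0 N)) : Prop :=
  ((γ : SL(2, ℤ)) : Matrix (Fin 2) (Fin 2) ℤ).trace ^ 2 = 4

/-- conjugation of the root of unity. -/
theorem conj_rootUnit (n : ℕ) :
    starRingEnd ℂ ((rootUnit n : ℂˣ) : ℂ) = (((rootUnit n)⁻¹ : ℂˣ) : ℂ) := by
  rw [Units.val_inv_eq_inv_val]
  have h := norm_rootUnit n
  have h0 : ((rootUnit n : ℂˣ) : ℂ) ≠ 0 := (rootUnit n).ne_zero
  rw [Complex.inv_def, Complex.normSq_eq_norm_sq, h]
  simp

/-- **the conjugate of `χ_{c,n}` is `χ_{-Jc,n}`.** -/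
theorem conjChar_charOf (N n : ℕ) (c : HomPar N) :
    conjChar N (charOf n c) = charOf n (-conjHom N c) := by
  ext γ
  rw [conjChar_apply, charOf_apply, charOf_apply, Units.val_zpow_eq_zpow_val, map_zpow₀,
    conj_rootUnit, Units.val_zpow_eq_zpow_val, Units.val_inv_eq_inv_val, inv_zpow, ← zpow_neg]
  rfl

end Fermat.Agent.EDescW
end
end MergeWrap_E_Desc_W_Basic
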