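import Mathlib
import Fermat.Prelude.Def_GaloisRep_ComplexConjugation
import Fermat.Prelude.Def_ModularCurve_ArithmeticGalois
import Fermat.Prelude.Def_ModularCurve_PeriodHomPair
import Fermat.Agent.MU.F3.I2.Kappa.Theta
import Fermat.Agent.S23.MF
import Fermat.Agent.MU.E.Desc.W.Basic

section MergeWrap_E_Desc_W_ThetaConj -- from E/Desc/W/ThetaConj.lean

/-!
# Cluster E' (descent), leaf W-K1 (helper17): the complex conjugation on theta classes

`f^c (z) := conj (f (- conj z))`.
-/

set_option autoImplicit false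
set_option linter.unusedSectionVars false
set_option linter.unusedVariables false
set_option linter.style.haveILetI false

noncomputable section

namespace Fermat.Agent.EDescW

open UpperHalfPlane CongruenceSubgroup ModularCurve AlgebraicCurve ModularCurve.Period
open scoped MatrixGroups ModularForm Manifold ComplexConjugate
open Fermat.Agent.S23 Fermat.Agent.F3I2

/-- `f^c (z) = conj (f (- conj z))`. -/
def thetaConjFun (f : ℍ → ℂ) : ℍ → ℂ := fun τ => conj (f (J • τ))

theorem thetaConjFun_apply (f : ℍ → ℂ) (τ : ℍ) : thetaConjFun f τ = conj (f (J • τ)) := rfl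

theorem thetaConjFun_eq_slash (w : ℤ) (f : ℍ → ℂ) : thetaConjFun f = f ∣[w] J := by
  funext τ
  simp [thetaConjFun, ModularForm.slash_def]

theorem thetaConj_J_smul_J_smul (τ : ℍ) : J • (J • τ) = τ := by
  apply UpperHalfPlane.ext
  rw [coe_J_smul, coe_J_smul]
  simp

theorem thetaConjFun_thetaConjFun (f : ℍ → ℂ) : thetaConjFun (thetaConjFun f) = f := by
  funext τ
  simp only [thetaConjFun_apply, thetaConj_J_smul_J_smul, Complex.conj_conj]

theorem thetaConjFun_zero : thetaConjFun (0 : ℍ → ℂ) = 0 := by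
  funext τ
  simp [thetaConjFun_apply]

theorem thetaConjFun_ne_zero {f : ℍ → ℂ} (hf : f ≠ 0) : thetaConjFun f ≠ 0 := by
  intro h
  apply hf
  rw [← thetaConjFun_thetaConjFun f, h, thetaConjFun_zero]

theorem thetaConjFun_pow (f : ℍ → ℂ) (n : ℕ) : thetaConjFun (f ^ n) = thetaConjFun f ^ n := by
  funext τ
  simp only [thetaConjFun_apply, Pi.pow_apply, map_pow]

theorem thetaConjFun_smul (c : ℂ) (f : ℍ → ℂ) :
    thetaConjFun (c • f) = conj c • thetaConjFun f := by
  funext τ
  simp only [thetaConjFun_apply, Pi.smul_apply, smul_eq_mul, map_mul]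

theorem thetaConj_mdiff {f : ℍ → ℂ} (hf : MDiff f) : MDiff (thetaConjFun f) := by
  rw [thetaConjFun_eq_slash 0]
  exact hf.slash 0 J

theorem thetaConj_J_mul (γ : SL(2, ℤ)) :
    J * ((γ : SL(2, ℤ)) : GL (Fin 2) ℝ) = ((jConjSL γ : SL(2, ℤ)) : GL (Fin 2) ℝ) * J := by
  apply Units.ext
  ext i j
  fin_cases i <;> fin_cases j <;>
    simp [J, Matrix.mul_apply, Fin.sum_univ_two, jConjMat]

/-- `(f^c) ∣ γ = (f ∣ δ γ δ⁻¹)^c`. -/
theorem thetaConjFun_slash (w : ℤ) (f : ℍ → ℂ) (γ : SL(2, ℤ)) :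
    (thetaConjFun f) ∣[w] γ = thetaConjFun (f ∣[w] (jConjSL γ)) := by
  rw [thetaConjFun_eq_slash w, thetaConjFun_eq_slash w, ModularForm.SL_slash, ModularForm.SL_slash,
    ← SlashAction.slash_mul, ← SlashAction.slash_mul]
  congr 1
  exact thetaConj_J_mul γ

theorem thetaConj_bdd {f : ℍ → ℂ} (hf : IsBoundedAtImInfty f) :
    IsBoundedAtImInfty (thetaConjFun f) := by
  rw [thetaConjFun_eq_slash 0]
  exact IsBoundedAtImInfty.slash 0 (by simp [J]) hf

/-- the conjugate of a form with character `χ` is a form with character `conjChar χ`. -/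
theorem isFormChar_thetaConj {N : ℕ} {w : ℤ} {χ : ↥(Gamma0 N) →* ℂˣ} {f : ℍ → ℂ}
    (hf : IsFormChar N w χ f) : IsFormChar N w (conjChar N χ) (thetaConjFun f) := by
  refine ⟨thetaConj_mdiff hf.mdiff, fun γ => ?_, fun g => ?_⟩
  · rw [thetaConjFun_slash]
    have h := hf.slash (jConjGamma0 N γ)
    rw [jConjGamma0_coe] at h
    rw [h, thetaConjFun_smul, conjChar_apply]
  · rw [thetaConjFun_slash]
    exact thetaConj_bdd (hf.bdd _)

theorem thetaConj_conjChar_one (N : ℕ) : conjChar N (1 : ↥(Gamma0 N) →* ℂˣ) = 1 := by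
  ext γ
  rw [conjChar_apply]
  simp

theorem thetaConj_isMF {N : ℕ} [NeZero N] {w : ℤ} {f : ℍ → ℂ} (hf : IsMF (G0 N) w f) :
    IsMF (G0 N) w (thetaConjFun f) := by
  have h := isFormChar_thetaConj (isFormChar_of_isMF hf)
  rw [thetaConj_conjChar_one] at h
  exact h.isMF


/-! ### `q`-expansions -/

theorem thetaConj_qParam (τ : ℍ) :
    conj (Function.Periodic.qParam 1 ((J • τ : ℍ) : ℂ)) = Function.Periodic.qParam 1 (τ : ℂ) := by
  rw [coe_J_smul, Function.Periodic.qParam, Function.Periodic.qParam, ← Complex.exp_conj]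
  congr 1
  simp only [map_mul, map_div₀, map_neg, Complex.conj_conj, Complex.conj_I, map_ofNat,
    Complex.conj_ofReal]
  ring

/-- the `q`-expansion of `f^c` is the coefficientwise conjugate of the one of `f`. -/
theorem thetaConj_qExpansion {N : ℕ} [NeZero N] {w : ℤ} {f : ℍ → ℂ} (hf : IsMF (G0 N) w f)
    (m : ℕ) :
    PowerSeries.coeff m (qExpansion 1 (thetaConjFun f)) =
      conj (PowerSeries.coeff m (qExpansion 1 f)) := by
  have h1 : (1 : ℝ) ∈ (G0 N).strictPeriods := one_mem_strictPeriods_G0 N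
  obtain ⟨A, hA⟩ := thetaConj_isMF hf
  obtain ⟨B, hB⟩ := hf
  haveI : Fact (IsCusp OnePoint.infty (G0 N)) :=
    ⟨Subgroup.isCusp_of_mem_strictPeriods one_pos h1⟩
  have key : ∀ τ : ℍ, HasSum (fun k : ℕ => conj (PowerSeries.coeff k (qExpansion 1 f)) •
      Function.Periodic.qParam 1 (τ : ℂ) ^ k) (A τ) := by
    intro τ
    have h2 := ModularForm.hasSum_qExpansion B one_pos h1 (J • τ)
    rw [hB] at h2
    have h3 := h2.star
    have e : A τ = star (f (J • τ)) := by
      rw [hA]; rfl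
    rw [e]
    convert h3 using 1
    funext k
    rw [smul_eq_mul, star_mul', ← thetaConj_qParam τ]
    simp only [Complex.star_def, map_pow]
  have h4 := ModularFormClass.qExpansion_coeff_unique one_pos h1 (f := A) key m
  rw [hA] at h4
  exact h4.symm

theorem thetaConj_qLaurent {N : ℕ} [NeZero N] {w : ℤ} {f : ℍ → ℂ} (hf : IsMF (G0 N) w f) :
    qLaurent (thetaConjFun f) = coeffMap (starRingEnd ℂ : ℂ →+* ℂ) (qLaurent f) := by
  ext k
  rw [coeffMap_coeff]
  unfold qLaurent
  rcases lt_or_ge k 0 with hk | hk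
  · have e : ∀ p : PowerSeries ℂ, (HahnSeries.ofPowerSeries ℤ ℂ p).coeff k = 0 := by
      intro p
      have := PowerSeries.coeff_coe (R := ℂ) p k
      rw [if_pos hk] at this
      exact this
    rw [e, e, map_zero]
  · obtain ⟨m, rfl⟩ := Int.eq_ofNat_of_zero_le hk
    rw [HahnSeries.ofPowerSeries_apply_coeff, HahnSeries.ofPowerSeries_apply_coeff,
      thetaConj_qExpansion hf]


/-! ### ratios, roots, classes -/

/-- the conjugation of `F_ℂ(N)` (coefficientwise). -/
abbrev thetaConjC (N : ℕ) : SemilinearAut ℂ (FC N) :=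
  arithmeticGalois (modularFunctionFieldFull N) complexConjAlgEquiv

theorem coe_thetaConjC_smul (N : ℕ) (x : FC N) :
    ((thetaConjC N • x : FC N) : LaurentSeries ℂ) =
      coeffMap (starRingEnd ℂ : ℂ →+* ℂ) (x : LaurentSeries ℂ) := rfl

theorem isRatioF_thetaConj {N : ℕ} [NeZero N] {x : FC N} {f g : ℍ → ℂ}
    (h : IsRatioF N x f g) : IsRatioF N (thetaConjC N • x) (thetaConjFun f) (thetaConjFun g) := by
  obtain ⟨hg, ⟨w, hf, hg'⟩, hq⟩ := h
  refine ⟨thetaConjFun_ne_zero hg, ⟨w, thetaConj_isMF hf, thetaConj_isMF hg'⟩, ?_⟩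
  rw [thetaConj_qLaurent hf, thetaConj_qLaurent hg', hq, map_mul, coe_thetaConjC_smul]

theorem thetaConj_isRootDiv_smul {K F : Type*} [Field K] [Field F] [Algebra K F] (g : SemilinearAut K F)
    {n : ℕ} {x : F} {D : Divisor.degZero (K := K) (F := F)} (h : IsRootDiv n x D) :
    IsRootDiv n (g • x) (SemilinearAut.degZeroSMulHom g D) := by
  refine ⟨?_, fun v => ?_⟩
  · intro h0
    apply h.1
    have := congrArg (fun y => g⁻¹ • y) h0
    simpa using this
  · rw [SemilinearAut.coe_degZeroSMulHom, SemilinearAut.divisor_smul_apply, h.2 (g⁻¹ • v)]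
    have h1 := SemilinearAut.ord_smul g (g⁻¹ • v) x
    rw [smul_inv_smul] at h1
    exact h1.symm

/-- **W-K1: the complex conjugate of a theta class.** -/
theorem isTheta_conj {N n : ℕ} [NeZero N] {χ : ↥(Gamma0 N) →* ℂˣ} {c : Pic0 ℂ (FC N)}
    (h : IsTheta N n χ c) : IsTheta N n (conjChar N χ) (complexConjAlgEquiv • c) := by
  obtain ⟨hχ, w, f, B, x, D, hf, hB, hf0, hB0, hr, hD, rfl⟩ := h
  refine ⟨fun γ => ?_, w, thetaConjFun f, thetaConjFun B, thetaConjC N • x,
    SemilinearAut.degZeroSMulHom (thetaConjC N) D, isFormChar_thetaConj hf, ?_,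
    thetaConjFun_ne_zero hf0, thetaConjFun_ne_zero hB0, ?_, thetaConj_isRootDiv_smul _ hD, ?_⟩
  · apply Units.ext
    rw [Units.val_pow_eq_pow_val, conjChar_apply, ← map_pow, ← Units.val_pow_eq_pow_val, hχ]
    simp
  · have h1 := isFormChar_thetaConj hB
    rwa [thetaConj_conjChar_one] at h1
  · rw [← thetaConjFun_pow, ← thetaConjFun_pow]
    exact isRatioF_thetaConj hr
  · rw [galois_smul_pic0_def, SemilinearAut.pic0_smul_mk]

end Fermat.Agent.EDescW
end
end MergeWrap_E_Desc_W_ThetaConj
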